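/-
Row 37 (S43), block E0, helper281.  ABSTRACT PART of the exactness `(E')` at level `Γ₀(M q)`.
Mathlib only.

`V` = the `p`-divisible group `J₀(M q)[p^∞]` localised at `(𝔪, U_q - u)`, `e j` = Weil pairing of level
`p ^ j`, `φ` = a Frobenius at `q`, `Y j` = toric part of `V[p ^ j]` (classes `≡ 1` at the two vertical
valuations).  From the formal facts `(φ - u) V[p ^ j] ≤ Y j`, `φ² = q²` on `Y j`,
`p Y (j+1) ≤ Y j`, `Y (j+1) ∩ V[p ^ j] ≤ Y j` we get, by weights and counting: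

* `Tower.lagrangian` : `YY a = p ^ a Y (a+1) ≤ V[p]` is its own orthogonal (so "the abelian part of the
  reduction vanishes", without any information on `Pic⁰` of a function field of characteristic `q`);
* `Tower.exact` : if moreover `N V[p ^ j] ≤ Y j` and `ker N ⟂ YY a` on `V[p]`, then `ker N = im N` on
  `V[p]`.
-/
import Mathlib

set_option autoImplicit false

namespace Fermat.Agent.S43.E0

section Card

variable {V : Type*} [AddCommGroup V]

/-- `|H| = |H ⊓ ker f| * |f H|`. -/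
theorem lagr_card_map (f : V →+ V) (H : AddSubgroup V) :
    Nat.card H = Nat.card (H ⊓ f.ker : AddSubgroup V) * Nat.card (H.map f) := by
  let g : H →+ V := f.comp H.subtype
  have h1 : Nat.card H = Nat.card (H ⧸ g.ker) * Nat.card g.ker :=
    AddSubgroup.card_eq_card_quotient_mul_card_addSubgroup g.ker
  have h2 : Nat.card (H ⧸ g.ker) = Nat.card g.range :=
    Nat.card_congr (QuotientAddGroup.quotientKerEquivRange g).toEquiv
  have h3 : g.range = H.map f := by
    ext y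
    constructor
    · rintro ⟨x, rfl⟩
      exact ⟨x.1, x.2, rfl⟩
    · rintro ⟨x, hx, rfl⟩
      exact ⟨⟨x, hx⟩, rfl⟩
  have h4 : Nat.card g.ker = Nat.card (H ⊓ f.ker : AddSubgroup V) := by
    refine Nat.card_congr ⟨fun x => ⟨x.1.1, x.1.2, x.2⟩, fun x => ⟨⟨x.1, x.2.1⟩, x.2.2⟩, ?_, ?_⟩
    · intro x; rfl
    · intro x; rfl
  rw [h1, h2, h3, h4, mul_comm]

theorem lagr_card_le {H H' : AddSubgroup V} [Finite H'] (h : H ≤ H') :
    Nat.card H ≤ Nat.card H' :=
  Nat.card_le_card_of_injective (AddSubgroup.inclusion h) (AddSubgroup.inclusion_injective h)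

theorem lagr_eq_of_card_le {H H' : AddSubgroup V} [Finite H'] (h : H ≤ H')
    (hc : Nat.card H' ≤ Nat.card H) : H = H' := by
  have : (H : Set V) = H' := by
    have e1 : (H' : Set V).ncard = Nat.card H' := (Nat.card_coe_set_eq (H' : Set V)).symm
    have e2 : (H : Set V).ncard = Nat.card H := (Nat.card_coe_set_eq (H : Set V)).symm
    apply Set.eq_of_subset_of_ncard_le h _ (Set.toFinite _)
    rw [e1, e2]; exact hc
  exact SetLike.coe_injective this

end Card

section Char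

/-- The number of characters of a finite monoid with values in a field. -/
theorem lagr_card_hom_le (M : Type*) [Monoid M] [Finite M] (K : Type*) [Field K] :
    Finite (M →* K) ∧ Nat.card (M →* K) ≤ Nat.card M := by
  classical
  have hli := linearIndependent_monoidHom M K
  have : Fintype M := Fintype.ofFinite M
  have : Finite (M →* K) := hli.finite
  have : Fintype (M →* K) := Fintype.ofFinite _
  refine ⟨inferInstance, ?_⟩
  have := hli.fintype_card_le_finrank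
  rw [Module.finrank_fintype_fun_eq_card] at this
  rwa [Nat.card_eq_fintype_card, Nat.card_eq_fintype_card]

end Char

section Pairing

/-- characters trivial on a subgroup. -/
theorem lagr_card_mul_le {G : Type*} [CommGroup G] [Finite G] {K : Type*} [Field K]
    {S : Type*} (χ : S → (G →* K)) (hχ : Function.Injective χ) (P : Subgroup G)
    (hP : ∀ s, ∀ g ∈ P, χ s g = 1) : Nat.card S * Nat.card P ≤ Nat.card G := by
  obtain ⟨hfin, hle⟩ := lagr_card_hom_le (G ⧸ P) K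
  let ψ : S → (G ⧸ P →* K) := fun s => QuotientGroup.lift P (χ s) (fun g hg => hP s g hg)
  have hψ : Function.Injective ψ := by
    intro s t hst
    apply hχ
    ext g
    exact DFunLike.congr_fun hst (g : G ⧸ P)
  have h1 : Nat.card S ≤ Nat.card (G ⧸ P) := (Nat.card_le_card_of_injective ψ hψ).trans hle
  rw [Subgroup.card_eq_card_quotient_mul_card_subgroup P]
  exact Nat.mul_le_mul_right _ h1

variable {V : Type*} [AddCommGroup V] {K : Type*} [Field K]

/-- `e` is a bi-additive pairing on the subgroup `W` with values in `K`, non degenerate on the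
left. -/
structure IsPairing (W : AddSubgroup V) (e : V → V → K) : Prop where
  ne : ∀ x ∈ W, ∀ y ∈ W, e x y ≠ 0
  addl : ∀ x ∈ W, ∀ x' ∈ W, ∀ y ∈ W, e (x + x') y = e x y * e x' y
  addr : ∀ x ∈ W, ∀ y ∈ W, ∀ y' ∈ W, e x (y + y') = e x y * e x y'
  nondeg : ∀ x ∈ W, (∀ y ∈ W, e x y = 1) → x = 0

namespace IsPairing

variable {W : AddSubgroup V} {e : V → V → K}

theorem zero_left (h : IsPairing W e) {y : V} (hy : y ∈ W) : e 0 y = 1 := by
  have := h.addl 0 W.zero_mem 0 W.zero_mem y hy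
  rw [add_zero] at this
  exact (mul_eq_left₀ (h.ne 0 W.zero_mem y hy)).mp this.symm

theorem zero_right (h : IsPairing W e) {x : V} (hx : x ∈ W) : e x 0 = 1 := by
  have := h.addr x hx 0 W.zero_mem 0 W.zero_mem
  rw [add_zero] at this
  exact (mul_eq_left₀ (h.ne x hx 0 W.zero_mem)).mp this.symm

theorem neg_left (h : IsPairing W e) {x y : V} (hx : x ∈ W) (hy : y ∈ W) :
    e (-x) y = (e x y)⁻¹ := by
  have := h.addl x hx (-x) (W.neg_mem hx) y hy
  rw [add_neg_cancel, h.zero_left hy] at this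
  exact eq_inv_of_mul_eq_one_right this.symm

theorem neg_right (h : IsPairing W e) {x y : V} (hx : x ∈ W) (hy : y ∈ W) :
    e x (-y) = (e x y)⁻¹ := by
  have := h.addr x hx y hy (-y) (W.neg_mem hy)
  rw [add_neg_cancel, h.zero_right hx] at this
  exact eq_inv_of_mul_eq_one_right this.symm

theorem nsmul_left (h : IsPairing W e) {x y : V} (hx : x ∈ W) (hy : y ∈ W) (n : ℕ) :
    e (n • x) y = e x y ^ n := by
  induction n with
  | zero => rw [zero_nsmul, pow_zero, h.zero_left hy]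
  | succ n ih => rw [succ_nsmul, h.addl _ (W.nsmul_mem hx n) _ hx _ hy, ih, pow_succ]

theorem nsmul_right (h : IsPairing W e) {x y : V} (hx : x ∈ W) (hy : y ∈ W) (n : ℕ) :
    e x (n • y) = e x y ^ n := by
  induction n with
  | zero => rw [zero_nsmul, pow_zero, h.zero_right hx]
  | succ n ih => rw [succ_nsmul, h.addr _ hx _ (W.nsmul_mem hy n) _ hy, ih, pow_succ]

/-- the right orthogonal of `S` in `W`. -/
def perp (h : IsPairing W e) (S : AddSubgroup V) : AddSubgroup V where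
  carrier := {y | y ∈ W ∧ ∀ s ∈ S, s ∈ W → e s y = 1}
  zero_mem' := ⟨W.zero_mem, fun _ _ hs => h.zero_right hs⟩
  add_mem' := by
    rintro a b ⟨ha, ha'⟩ ⟨hb, hb'⟩
    refine ⟨W.add_mem ha hb, fun s hs hsW => ?_⟩
    rw [h.addr s hsW a ha b hb, ha' s hs hsW, hb' s hs hsW, one_mul]
  neg_mem' := by
    rintro a ⟨ha, ha'⟩
    refine ⟨W.neg_mem ha, fun s hs hsW => ?_⟩
    rw [h.neg_right hsW ha, ha' s hs hsW, inv_one]

theorem mem_perp (h : IsPairing W e) {S : AddSubgroup V} {y : V} :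
    y ∈ h.perp S ↔ y ∈ W ∧ ∀ s ∈ S, s ∈ W → e s y = 1 := Iff.rfl

theorem perp_le (h : IsPairing W e) (S : AddSubgroup V) : h.perp S ≤ W := fun _ hy => hy.1

/-- **The counting inequality** `|S| |S^⊥| ≤ |W|`. -/
theorem card_mul_card_perp_le (h : IsPairing W e) [Finite W] {S : AddSubgroup V} (hS : S ≤ W) :
    Nat.card S * Nat.card (h.perp S) ≤ Nat.card W := by
  let χ : S → (Multiplicative W →* K) := fun s =>
    { toFun := fun y => e s.1 (Multiplicative.toAdd y).1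
      map_one' := h.zero_right (hS s.2)
      map_mul' := fun y y' => h.addr _ (hS s.2) _ (Multiplicative.toAdd y).2 _
        (Multiplicative.toAdd y').2 }
  have hχ : Function.Injective χ := by
    intro s t hst
    have h1 : ∀ y ∈ W, e s.1 y = e t.1 y := fun y hy =>
      DFunLike.congr_fun hst (Multiplicative.ofAdd (⟨y, hy⟩ : W))
    have h2 : s.1 - t.1 = 0 := by
      apply h.nondeg _ (W.sub_mem (hS s.2) (hS t.2))
      intro y hy
      rw [sub_eq_add_neg, h.addl _ (hS s.2) _ (W.neg_mem (hS t.2)) _ hy, h.neg_left (hS t.2) hy,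
        h1 y hy, mul_inv_cancel₀ (h.ne _ (hS t.2) _ hy)]
    exact Subtype.ext (sub_eq_zero.mp h2)
  let P : Subgroup (Multiplicative W) := AddSubgroup.toSubgroup ((h.perp S).addSubgroupOf W)
  have hP : ∀ s, ∀ g ∈ P, χ s g = 1 := by
    intro s g hg
    have hg' : (Multiplicative.toAdd g).1 ∈ h.perp S := hg
    exact hg'.2 s.1 s.2 (hS s.2)
  have key := lagr_card_mul_le χ hχ P hP
  have e1 : Nat.card P = Nat.card (h.perp S) := by
    refine Nat.card_congr ⟨fun x => ⟨(Multiplicative.toAdd x.1).1, x.2⟩,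
      fun x => ⟨Multiplicative.ofAdd ⟨x.1, h.perp_le S x.2⟩, x.2⟩, ?_, ?_⟩
    · intro x; rfl
    · intro x; rfl
  have e2 : Nat.card (Multiplicative W) = Nat.card W := Nat.card_congr Multiplicative.toAdd
  rwa [e1, e2] at key

end IsPairing

end Pairing

section Numeric

theorem lagr_pow_eq_one {K : Type*} [Field K] {p : ℕ} (hp : p.Prime) {q a k : ℕ}
    (hqa : ¬ p ^ (a + 1) ∣ q ^ 4 - q ^ 2) {z : K} (hz : z ≠ 0) (h1 : z ^ p ^ k = 1)
    (h2 : z ^ q ^ 4 = z ^ q ^ 2) : z ^ p ^ a = 1 := by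
  have hle : q ^ 2 ≤ q ^ 4 := by
    rcases Nat.eq_zero_or_pos q with rfl | hq
    · simp
    · exact Nat.pow_le_pow_right hq (by norm_num)
  have h3 : z ^ (q ^ 4 - q ^ 2) = 1 := by
    have : z ^ (q ^ 4 - q ^ 2) * z ^ q ^ 2 = 1 * z ^ q ^ 2 := by
      rw [← pow_add, Nat.sub_add_cancel hle, one_mul, h2]
    exact mul_right_cancel₀ (pow_ne_zero _ hz) this
  obtain ⟨i, -, hi⟩ := (Nat.dvd_prime_pow hp).1 (orderOf_dvd_of_pow_eq_one h1)
  have h4 : p ^ i ∣ q ^ 4 - q ^ 2 := hi ▸ orderOf_dvd_of_pow_eq_one h3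
  have hia : i ≤ a := by
    by_contra hcon
    exact hqa ((pow_dvd_pow p (by omega)).trans h4)
  exact orderOf_dvd_iff_pow_eq_one.1 (hi ▸ pow_dvd_pow p hia)

theorem lagr_le_of_pow_le {w t C : ℕ} (h : ∀ m, w ^ m ≤ C * t ^ m) : w ≤ t := by
  by_contra hcon
  push Not at hcon
  rcases Nat.eq_zero_or_pos t with rfl | ht
  · have := h 1
    simp at this
    omega
  have ht' : (0 : ℝ) < t := by exact_mod_cast ht
  have h1 : (1 : ℝ) < (w : ℝ) / t := by
    rw [one_lt_div ht']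
    exact_mod_cast hcon
  obtain ⟨m, hm⟩ := pow_unbounded_of_one_lt (C : ℝ) h1
  have h2 : ((w ^ m : ℕ) : ℝ) ≤ ((C * t ^ m : ℕ) : ℝ) := by exact_mod_cast h m
  push_cast at h2
  rw [div_pow, lt_div_iff₀ (pow_pos ht' m)] at hm
  linarith

end Numeric

section Tower

/-- `V[p ^ j]`. -/
def Tp (V : Type*) [AddCommGroup V] (p j : ℕ) : AddSubgroup V :=
  (nsmulAddMonoidHom (α := V) (p ^ j)).ker

theorem mem_Tp {V : Type*} [AddCommGroup V] {p j : ℕ} {x : V} :
    x ∈ Tp V p j ↔ p ^ j • x = 0 := Iff.rfl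

/-- **The tower of the toric parts.**  `V` is the `p`-divisible group (`= J₀(Mq)[p^∞]` localised at
`(𝔪, U_q - u)`), `e j` the Weil pairing of level `p ^ j`, `φ` a Frobenius at `q`, `Y j` the toric part
of `V[p ^ j]`. -/
structure Tower (p : ℕ) (V : Type*) [AddCommGroup V] (K : Type*) [Field K] where
  hp : p.Prime
  q : ℕ
  a : ℕ
  hqa : ¬ p ^ (a + 1) ∣ q ^ 4 - q ^ 2
  fin : ∀ j, Finite (Tp V p j)
  div : ∀ x : V, ∃ y : V, p • y = x
  e : ℕ → V → V → K
  pairing : ∀ j, IsPairing (Tp V p j) (e j)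
  tower : ∀ j, ∀ x ∈ Tp V p (j + 1), ∀ y ∈ Tp V p (j + 1),
    e 1 (p ^ j • x) (p ^ j • y) = e (j + 1) x y ^ p ^ j
  φ : V →+ V
  e_φ : ∀ j, ∀ x ∈ Tp V p j, ∀ y ∈ Tp V p j, e j (φ x) (φ y) = e j x y ^ q
  u : ℤ
  hu : u = 1 ∨ u = -1
  Y : ℕ → AddSubgroup V
  Y_le : ∀ j, Y j ≤ Tp V p j
  Y_p : ∀ j, ∀ x ∈ Y (j + 1), p • x ∈ Y j
  Y_tors : ∀ j, ∀ x ∈ Y (j + 1), p ^ j • x = 0 → x ∈ Y j
  Y_φ : ∀ j, ∀ x ∈ Tp V p j, φ x - u • x ∈ Y j
  Y_sq : ∀ j, ∀ x ∈ Y j, φ (φ x) = q ^ 2 • x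

namespace Tower

variable {p : ℕ} {V : Type*} [AddCommGroup V] {K : Type*} [Field K] (T : Tower p V K)

/-- the classes of order `p` which are `p ^ j` times a toric class of level `p ^ (j + 1)`. -/
def YY (j : ℕ) : AddSubgroup V := (T.Y (j + 1)).map (nsmulAddMonoidHom (α := V) (p ^ j))

theorem mem_YY {j : ℕ} {y : V} : y ∈ T.YY j ↔ ∃ x ∈ T.Y (j + 1), p ^ j • x = y := Iff.rfl

theorem map_mem_Tp (f : V →+ V) {j : ℕ} {x : V} (hx : x ∈ Tp V p j) : f x ∈ Tp V p j := by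
  rw [mem_Tp] at hx ⊢
  rw [← map_nsmul, hx, map_zero]

theorem YY_le (j : ℕ) : T.YY j ≤ Tp V p 1 := by
  rintro y ⟨x, hx, rfl⟩
  have := T.Y_le _ hx
  rw [mem_Tp] at this ⊢
  show p ^ 1 • p ^ j • x = 0
  rw [← mul_nsmul', ← pow_add, add_comm 1 j]
  exact this

theorem YY_anti (j : ℕ) : T.YY (j + 1) ≤ T.YY j := by
  rintro y ⟨x, hx, rfl⟩
  refine ⟨p • x, T.Y_p _ x hx, ?_⟩
  show p ^ j • p • x = p ^ (j + 1) • x
  rw [← mul_nsmul', pow_succ]

theorem YY_anti' {i j : ℕ} (h : i ≤ j) : T.YY j ≤ T.YY i := by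
  induction j, h using Nat.le_induction with
  | base => exact le_rfl
  | succ j _ ih => exact (T.YY_anti j).trans ih

include T in
theorem finite_of_le {H : AddSubgroup V} {j : ℕ} (h : H ≤ Tp V p j) : Finite H :=
  have := T.fin j
  Finite.of_injective (AddSubgroup.inclusion h) (AddSubgroup.inclusion_injective h)

/-- `w = |V[p]|`. -/
noncomputable def w (_T : Tower p V K) : ℕ := Nat.card (Tp V p 1)

theorem w_pos : 0 < T.w := by
  have := T.fin 1
  exact Nat.card_pos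

theorem card_Tp (j : ℕ) : Nat.card (Tp V p j) = T.w ^ j := by
  induction j with
  | zero =>
    have : Tp V p 0 = ⊥ := by
      ext x
      rw [mem_Tp, pow_zero, one_nsmul, AddSubgroup.mem_bot]
    rw [this, pow_zero]
    exact AddSubgroup.card_bot
  | succ j ih =>
    have h := lagr_card_map (nsmulAddMonoidHom (α := V) p) (Tp V p (j + 1))
    have h1 : (Tp V p (j + 1) ⊓ (nsmulAddMonoidHom (α := V) p).ker : AddSubgroup V) = Tp V p 1 := by
      ext x
      rw [AddSubgroup.mem_inf, mem_Tp, mem_Tp, pow_one]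
      constructor
      · exact fun h => h.2
      · intro h
        refine ⟨?_, h⟩
        rw [pow_succ, mul_nsmul', h, nsmul_zero]
    have h2 : (Tp V p (j + 1)).map (nsmulAddMonoidHom (α := V) p) = Tp V p j := by
      ext y
      constructor
      · rintro ⟨x, hx, rfl⟩
        have hx' : p ^ (j + 1) • x = 0 := hx
        show p ^ j • p • x = 0
        rw [← mul_nsmul', ← pow_succ]
        exact hx'
      · intro hy
        obtain ⟨x, rfl⟩ := T.div y
        refine ⟨x, ?_, rfl⟩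
        have hy' : p ^ j • p • x = 0 := hy
        show p ^ (j + 1) • x = 0
        rw [pow_succ, mul_nsmul']
        exact hy'
    rw [h, h1, h2, ih, pow_succ, mul_comm]
    rfl

theorem pow_eq_one {j : ℕ} {x y : V} (hx : x ∈ Tp V p j) (hy : y ∈ Tp V p j) :
    T.e j x y ^ p ^ j = 1 := by
  rw [← (T.pairing j).nsmul_left hx hy, mem_Tp.1 hx, (T.pairing j).zero_left hy]

/-- weights on the toric part. -/
theorem weight_Y {j : ℕ} {x y : V} (hx : x ∈ T.Y j) (hy : y ∈ T.Y j) :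
    T.e j x y ^ p ^ T.a = 1 := by
  have hx' := T.Y_le j hx
  have hy' := T.Y_le j hy
  refine lagr_pow_eq_one T.hp T.hqa ((T.pairing j).ne x hx' y hy') (T.pow_eq_one hx' hy') ?_
  have h1 : T.e j (T.φ (T.φ x)) (T.φ (T.φ y)) = (T.e j x y ^ T.q) ^ T.q := by
    rw [T.e_φ j _ (map_mem_Tp T.φ hx') _ (map_mem_Tp T.φ hy'), T.e_φ j _ hx' _ hy']
  rw [T.Y_sq j x hx, T.Y_sq j y hy, (T.pairing j).nsmul_left hx' ((Tp V p j).nsmul_mem hy' _),
    (T.pairing j).nsmul_right hx' hy', ← pow_mul, ← pow_mul] at h1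
  have e1 : T.q ^ 4 = T.q ^ 2 * T.q ^ 2 := by ring
  have e2 : T.q ^ 2 = T.q * T.q := by ring
  rw [e1, h1, ← e2]

/-- weights on the `u`-eigenspace of Frobenius. -/
theorem weight_A {j : ℕ} {x y : V} (hx : x ∈ Tp V p j) (hy : y ∈ Tp V p j)
    (hx' : T.φ x = T.u • x) (hy' : T.φ y = T.u • y) : T.e j x y ^ p ^ T.a = 1 := by
  have h0 : T.e j x y ^ T.q = T.e j x y := by
    rw [← T.e_φ j x hx y hy, hx', hy']
    rcases T.hu with h | h
    · rw [h, one_zsmul, one_zsmul]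
    · rw [h, neg_one_zsmul, neg_one_zsmul, (T.pairing j).neg_left hx ((Tp V p j).neg_mem hy),
        (T.pairing j).neg_right hx hy, inv_inv]
  refine lagr_pow_eq_one T.hp T.hqa ((T.pairing j).ne x hx y hy) (T.pow_eq_one hx hy) ?_
  have e2 : T.e j x y ^ T.q ^ 2 = T.e j x y := by rw [pow_two, pow_mul, h0, h0]
  have e1 : T.q ^ 4 = T.q ^ 2 * T.q ^ 2 := by ring
  rw [e1, pow_mul, e2, e2]

/-- `YY j` is isotropic for `j ≥ a`. -/
theorem YY_isotropic {j : ℕ} (hj : T.a ≤ j) {y y' : V} (hy : y ∈ T.YY j) (hy' : y' ∈ T.YY j) :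
    T.e 1 y y' = 1 := by
  obtain ⟨x, hx, rfl⟩ := hy
  obtain ⟨x', hx', rfl⟩ := hy'
  show T.e 1 (p ^ j • x) (p ^ j • x') = 1
  rw [T.tower j x (T.Y_le _ hx) x' (T.Y_le _ hx')]
  obtain ⟨i, rfl⟩ := Nat.exists_eq_add_of_le hj
  rw [pow_add, pow_mul, T.weight_Y hx hx', one_pow]

theorem card_YY_sq_le {j : ℕ} (hj : T.a ≤ j) : Nat.card (T.YY j) * Nat.card (T.YY j) ≤ T.w := by
  have := T.fin 1
  have h1 : T.YY j ≤ (T.pairing 1).perp (T.YY j) := fun y hy =>
    ⟨T.YY_le j hy, fun s hs _ => T.YY_isotropic hj hs hy⟩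
  have : Finite ((T.pairing 1).perp (T.YY j)) := T.finite_of_le ((T.pairing 1).perp_le _)
  exact (Nat.mul_le_mul_left _ (lagr_card_le h1)).trans
    ((T.pairing 1).card_mul_card_perp_le (T.YY_le j))

theorem card_Y_succ_le (j : ℕ) :
    Nat.card (T.Y (j + 1)) ≤ Nat.card (T.Y j) * Nat.card (T.YY j) := by
  have h := lagr_card_map (nsmulAddMonoidHom (α := V) (p ^ j)) (T.Y (j + 1))
  have : Finite (T.Y j) := T.finite_of_le (T.Y_le j)
  have h1 : (T.Y (j + 1) ⊓ (nsmulAddMonoidHom (α := V) (p ^ j)).ker : AddSubgroup V) ≤ T.Y j :=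
    fun x hx => T.Y_tors j x hx.1 hx.2
  rw [h]
  exact Nat.mul_le_mul_right _ (lagr_card_le h1)

theorem card_YY_le_w (j : ℕ) : Nat.card (T.YY j) ≤ T.w := by
  have := T.fin 1
  exact lagr_card_le (T.YY_le j)

theorem card_Y_le_pow (j : ℕ) : Nat.card (T.Y j) ≤ T.w ^ j := by
  have := T.fin j
  rw [← T.card_Tp j]
  exact lagr_card_le (T.Y_le j)

theorem card_Y_add_le (m : ℕ) :
    Nat.card (T.Y (T.a + m)) ≤ T.w ^ T.a * Nat.card (T.YY T.a) ^ m := by
  induction m with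
  | zero => simpa using T.card_Y_le_pow T.a
  | succ m ih =>
    have : Finite (T.YY T.a) := T.finite_of_le (T.YY_le _)
    calc Nat.card (T.Y (T.a + (m + 1))) ≤ Nat.card (T.Y (T.a + m)) * Nat.card (T.YY (T.a + m)) :=
          T.card_Y_succ_le (T.a + m)
      _ ≤ (T.w ^ T.a * Nat.card (T.YY T.a) ^ m) * Nat.card (T.YY T.a) :=
          Nat.mul_le_mul ih (lagr_card_le (T.YY_anti' (Nat.le_add_right _ _)))
      _ = T.w ^ T.a * Nat.card (T.YY T.a) ^ (m + 1) := by rw [pow_succ, mul_assoc]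

/-- the lower bound for the toric part. -/
theorem pow_le_card_Y (k : ℕ) : T.w ^ k ≤ T.w ^ T.a * (Nat.card (T.Y k) * Nat.card (T.Y k)) := by
  have := T.fin k
  have := T.fin T.a
  set f : V →+ V := T.φ - zsmulAddGroupHom T.u with hf
  have hfx : ∀ x, f x = T.φ x - T.u • x := fun x => rfl
  set A : AddSubgroup V := Tp V p k ⊓ f.ker with hA
  have hAle : A ≤ Tp V p k := inf_le_left
  have hAφ : ∀ x ∈ A, T.φ x = T.u • x := fun x hx => sub_eq_zero.1 ((hfx x).symm.trans hx.2)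
  have : Finite A := T.finite_of_le hAle
  have : Finite (T.Y k) := T.finite_of_le (T.Y_le k)
  -- `|W| ≤ |A| |Y|`
  have h1 : T.w ^ k ≤ Nat.card A * Nat.card (T.Y k) := by
    rw [← T.card_Tp k, lagr_card_map f (Tp V p k)]
    refine Nat.mul_le_mul_left _ (lagr_card_le ?_)
    rintro y ⟨x, hx, rfl⟩
    rw [hfx]
    exact T.Y_φ k x hx
  -- `|A| ≤ w ^ a |A^⊥|`
  have : Finite ((T.pairing k).perp A) := T.finite_of_le ((T.pairing k).perp_le _)
  have h2 : Nat.card A ≤ T.w ^ T.a * Nat.card ((T.pairing k).perp A) := by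
    rw [lagr_card_map (nsmulAddMonoidHom (α := V) (p ^ T.a)) A, ← T.card_Tp T.a]
    refine Nat.mul_le_mul (lagr_card_le fun x hx => hx.2) (lagr_card_le ?_)
    rintro y ⟨x, hx, rfl⟩
    refine ⟨(Tp V p k).nsmul_mem (hAle hx) _, fun s hs _ => ?_⟩
    show T.e k s (p ^ T.a • x) = 1
    rw [(T.pairing k).nsmul_right (hAle hs) (hAle hx)]
    exact T.weight_A (hAle hs) (hAle hx) (hAφ s hs) (hAφ x hx)
  have h3 : Nat.card A * Nat.card ((T.pairing k).perp A) ≤ T.w ^ k := by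
    rw [← T.card_Tp k]
    exact (T.pairing k).card_mul_card_perp_le hAle
  -- `|A|² ≤ w ^ (a + k)`
  have h4 : Nat.card A * Nat.card A ≤ T.w ^ T.a * T.w ^ k := by
    calc Nat.card A * Nat.card A ≤ Nat.card A * (T.w ^ T.a * Nat.card ((T.pairing k).perp A)) :=
          Nat.mul_le_mul_left _ h2
      _ = T.w ^ T.a * (Nat.card A * Nat.card ((T.pairing k).perp A)) := by ring
      _ ≤ T.w ^ T.a * T.w ^ k := Nat.mul_le_mul_left _ h3
  have h5 : T.w ^ k * T.w ^ k ≤ T.w ^ k * (T.w ^ T.a * (Nat.card (T.Y k) * Nat.card (T.Y k))) := by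
    calc T.w ^ k * T.w ^ k ≤ (Nat.card A * Nat.card (T.Y k)) * (Nat.card A * Nat.card (T.Y k)) :=
          Nat.mul_le_mul h1 h1
      _ = (Nat.card A * Nat.card A) * (Nat.card (T.Y k) * Nat.card (T.Y k)) := by ring
      _ ≤ (T.w ^ T.a * T.w ^ k) * (Nat.card (T.Y k) * Nat.card (T.Y k)) :=
          Nat.mul_le_mul_right _ h4
      _ = T.w ^ k * (T.w ^ T.a * (Nat.card (T.Y k) * Nat.card (T.Y k))) := by ring
  exact Nat.le_of_mul_le_mul_left h5 (pow_pos T.w_pos k)

/-- `|YY a|² = |V[p]|`. -/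
theorem card_YY_sq : Nat.card (T.YY T.a) * Nat.card (T.YY T.a) = T.w := by
  refine le_antisymm (T.card_YY_sq_le le_rfl) ?_
  set s := Nat.card (T.YY T.a) with hs
  apply lagr_le_of_pow_le (C := T.w ^ (2 * T.a))
  intro m
  have h1 := T.pow_le_card_Y (T.a + m)
  have h2 := T.card_Y_add_le m
  rw [← hs] at h2
  have h3 : T.w ^ T.a * T.w ^ m ≤ T.w ^ T.a * (T.w ^ (2 * T.a) * (s * s) ^ m) := by
    calc T.w ^ T.a * T.w ^ m = T.w ^ (T.a + m) := (pow_add _ _ _).symm
      _ ≤ T.w ^ T.a * (Nat.card (T.Y (T.a + m)) * Nat.card (T.Y (T.a + m))) := h1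
      _ ≤ T.w ^ T.a * ((T.w ^ T.a * s ^ m) * (T.w ^ T.a * s ^ m)) :=
          Nat.mul_le_mul_left _ (Nat.mul_le_mul h2 h2)
      _ = T.w ^ T.a * (T.w ^ (2 * T.a) * (s * s) ^ m) := by rw [mul_pow, two_mul, pow_add]; ring
  exact Nat.le_of_mul_le_mul_left h3 (pow_pos T.w_pos _)

/-- **The divisible toric part is Lagrangian.** -/
theorem lagrangian {x : V} (hx : x ∈ Tp V p 1) (h : ∀ y ∈ T.YY T.a, T.e 1 y x = 1) :
    x ∈ T.YY T.a := by
  have := T.fin 1
  have h1 : T.YY T.a ≤ (T.pairing 1).perp (T.YY T.a) := fun y hy =>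
    ⟨T.YY_le _ hy, fun s hs _ => T.YY_isotropic le_rfl hs hy⟩
  have : Finite ((T.pairing 1).perp (T.YY T.a)) := T.finite_of_le ((T.pairing 1).perp_le _)
  have : Finite (T.YY T.a) := T.finite_of_le (T.YY_le _)
  have h2 := (T.pairing 1).card_mul_card_perp_le (T.YY_le T.a)
  have h3 : Nat.card ((T.pairing 1).perp (T.YY T.a)) ≤ Nat.card (T.YY T.a) := by
    have h4 : Nat.card (T.YY T.a) * Nat.card ((T.pairing 1).perp (T.YY T.a)) ≤
        Nat.card (T.YY T.a) * Nat.card (T.YY T.a) := by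
      rw [T.card_YY_sq]; exact h2
    exact Nat.le_of_mul_le_mul_left h4 Nat.card_pos
  rw [lagr_eq_of_card_le h1 h3]
  exact ⟨hx, fun s hs _ => h s hs⟩

/-- **Exactness (E')**: if `N` (`= σ - 1`) maps `V[p ^ j]` into the toric part and the kernel of `N`
on `V[p]` is orthogonal to the divisible toric part, then `ker N = im N` on `V[p]`. -/
theorem exact (N : V →+ V) (hN : ∀ j, ∀ x ∈ Tp V p j, N x ∈ T.Y j)
    (horth : ∀ x ∈ Tp V p 1, N x = 0 → ∀ y ∈ T.YY T.a, T.e 1 y x = 1)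
    {x : V} (hx : x ∈ Tp V p 1) (hNx : N x = 0) : ∃ z ∈ Tp V p 1, x = N z := by
  have := T.fin 1
  have : Finite (T.YY T.a) := T.finite_of_le (T.YY_le _)
  have hker : (Tp V p 1 ⊓ N.ker : AddSubgroup V) ≤ T.YY T.a := fun z hz =>
    T.lagrangian hz.1 (horth z hz.1 hz.2)
  have him : (Tp V p 1).map N ≤ T.YY T.a := by
    rintro y ⟨z, hz, rfl⟩
    -- `z = p ^ a z'`
    have hdiv : ∀ (i : ℕ) (v : V), ∃ v', p ^ i • v' = v := by
      intro i
      induction i with
      | zero => exact fun v => ⟨v, by rw [pow_zero, one_nsmul]⟩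
      | succ i ih =>
        intro v
        obtain ⟨v₁, rfl⟩ := ih v
        obtain ⟨v₂, rfl⟩ := T.div v₁
        exact ⟨v₂, by rw [pow_succ, mul_nsmul']⟩
    obtain ⟨z', rfl⟩ := hdiv T.a z
    refine ⟨N z', hN _ z' ?_, ?_⟩
    · have hz' : p ^ 1 • p ^ T.a • z' = 0 := hz
      rw [pow_one, ← mul_nsmul', mul_comm] at hz'
      show p ^ (T.a + 1) • z' = 0
      rw [pow_succ]
      exact hz'
    · show p ^ T.a • N z' = N (p ^ T.a • z')
      rw [map_nsmul]
  have hcard := lagr_card_map N (Tp V p 1)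
  have h1 : Nat.card (T.YY T.a) ≤ Nat.card ((Tp V p 1).map N) := by
    have h2 : Nat.card (T.YY T.a) * Nat.card (T.YY T.a) ≤
        Nat.card (T.YY T.a) * Nat.card ((Tp V p 1).map N) := by
      rw [T.card_YY_sq]
      show Nat.card (Tp V p 1) ≤ _
      rw [hcard]
      exact Nat.mul_le_mul_right _ (lagr_card_le hker)
    exact Nat.le_of_mul_le_mul_left h2 Nat.card_pos
  have h3 : (Tp V p 1).map N = T.YY T.a := lagr_eq_of_card_le him h1
  have h4 : x ∈ (Tp V p 1).map N := h3 ▸ hker ⟨hx, hNx⟩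
  obtain ⟨z, hz, rfl⟩ := h4
  exact ⟨z, hz, rfl⟩

end Tower

end Tower

end Fermat.Agent.S43.E0
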