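/-
Row 37 (S43), block E0, helper281.  VARIANT of `E0/Lagr.lean` + `E0/LagrK.lean` WITHOUT localisation at
`U_q - u`: the scalar `u = ± 1` is replaced by an additive map `U` (`= U_q = - w_q` on the `𝔪`-part) which
is an ISOMETRY of all the pairings.  Same statements, same proofs.  Mathlib only.

`TowerU.lagrangian`, `TowerU.exact`, `TowerU.IsMono.exact_all`, `.mem_Y_iff`, `.mem_Y_iff_exists`,
`.exists_nsmul_eq`, `.YY_eq`, `.card_Y_sq`, `.mem_Y_one_of_orth`, `.Y_one_isotropic`, `.pure`.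
-/
import Fermat.Agent.S43.E0.Lagr

set_option autoImplicit false

namespace Fermat.Agent.S43.E0

/-- **The tower of the toric parts.**  `V` is the `p`-divisible group (`= J₀(Mq)[p^∞]` localised at
`𝔪`), `e j` the Weil pairing of level `p ^ j`, `φ` a Frobenius at `q`, `Y j` the toric part
of `V[p ^ j]`. -/
structure TowerU (p : ℕ) (V : Type*) [AddCommGroup V] (K : Type*) [Field K] where
  hp : p.Prime
  q : ℕ
  a : ℕ
  hqa : ¬ p ^ (a + 1) ∣ q ^ 4 - q ^ 2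
  fin : ∀ j, Finite (Tp V p j)
  div : ∀ x : V, ∃ y : V, p • y = x
  e : ℕ → V → V → K
  pairing : ∀ j, IsPairing (Tp V p j) (e j)
  tower : ∀ j, ∀ x ∈ Tp V p (j + 1), ∀ y ∈ Tp V p (j + 1),
    e 1 (p ^ j • x) (p ^ j • y) = e (j + 1) x y ^ p ^ j
  φ : V →+ V
  e_φ : ∀ j, ∀ x ∈ Tp V p j, ∀ y ∈ Tp V p j, e j (φ x) (φ y) = e j x y ^ q
  /-- `U = U_q = - w_q`, an isometry -/
  U : V →+ V
  e_U : ∀ j, ∀ x ∈ Tp V p j, ∀ y ∈ Tp V p j, e j (U x) (U y) = e j x y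
  Y : ℕ → AddSubgroup V
  Y_le : ∀ j, Y j ≤ Tp V p j
  Y_p : ∀ j, ∀ x ∈ Y (j + 1), p • x ∈ Y j
  Y_tors : ∀ j, ∀ x ∈ Y (j + 1), p ^ j • x = 0 → x ∈ Y j
  Y_φ : ∀ j, ∀ x ∈ Tp V p j, φ x - U x ∈ Y j
  Y_sq : ∀ j, ∀ x ∈ Y j, φ (φ x) = q ^ 2 • x

namespace TowerU

variable {p : ℕ} {V : Type*} [AddCommGroup V] {K : Type*} [Field K] (T : TowerU p V K)

/-- the classes of order `p` which are `p ^ j` times a toric class of level `p ^ (j + 1)`. -/
def YY (j : ℕ) : AddSubgroup V := (T.Y (j + 1)).map (nsmulAddMonoidHom (α := V) (p ^ j))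

theorem mem_YY {j : ℕ} {y : V} : y ∈ T.YY j ↔ ∃ x ∈ T.Y (j + 1), p ^ j • x = y := Iff.rfl

theorem map_mem_Tp (f : V →+ V) {j : ℕ} {x : V} (hx : x ∈ Tp V p j) : f x ∈ Tp V p j := by
  rw [mem_Tp] at hx ⊢
  rw [← map_nsmul, hx, map_zero]

theorem YY_le (j : ℕ) : T.YY j ≤ Tp V p 1 := by
  rintro y ⟨x, hx, rfl⟩
  have := T.Y_le _ hx
  rw [mem_Tp] at this ⊢
  show p ^ 1 • p ^ j • x = 0
  rw [← mul_nsmul', ← pow_add, add_comm 1 j]
  exact this

theorem YY_anti (j : ℕ) : T.YY (j + 1) ≤ T.YY j := by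
  rintro y ⟨x, hx, rfl⟩
  refine ⟨p • x, T.Y_p _ x hx, ?_⟩
  show p ^ j • p • x = p ^ (j + 1) • x
  rw [← mul_nsmul', pow_succ]

theorem YY_anti' {i j : ℕ} (h : i ≤ j) : T.YY j ≤ T.YY i := by
  induction j, h using Nat.le_induction with
  | base => exact le_rfl
  | succ j _ ih => exact (T.YY_anti j).trans ih

include T in
theorem finite_of_le {H : AddSubgroup V} {j : ℕ} (h : H ≤ Tp V p j) : Finite H :=
  have := T.fin j
  Finite.of_injective (AddSubgroup.inclusion h) (AddSubgroup.inclusion_injective h)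

/-- `w = |V[p]|`. -/
noncomputable def w (_T : TowerU p V K) : ℕ := Nat.card (Tp V p 1)

theorem w_pos : 0 < T.w := by
  have := T.fin 1
  exact Nat.card_pos

theorem card_Tp (j : ℕ) : Nat.card (Tp V p j) = T.w ^ j := by
  induction j with
  | zero =>
    have : Tp V p 0 = ⊥ := by
      ext x
      rw [mem_Tp, pow_zero, one_nsmul, AddSubgroup.mem_bot]
    rw [this, pow_zero]
    exact AddSubgroup.card_bot
  | succ j ih =>
    have h := lagr_card_map (nsmulAddMonoidHom (α := V) p) (Tp V p (j + 1))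
    have h1 : (Tp V p (j + 1) ⊓ (nsmulAddMonoidHom (α := V) p).ker : AddSubgroup V) = Tp V p 1 := by
      ext x
      rw [AddSubgroup.mem_inf, mem_Tp, mem_Tp, pow_one]
      constructor
      · exact fun h => h.2
      · intro h
        refine ⟨?_, h⟩
        rw [pow_succ, mul_nsmul', h, nsmul_zero]
    have h2 : (Tp V p (j + 1)).map (nsmulAddMonoidHom (α := V) p) = Tp V p j := by
      ext y
      constructor
      · rintro ⟨x, hx, rfl⟩
        have hx' : p ^ (j + 1) • x = 0 := hx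
        show p ^ j • p • x = 0
        rw [← mul_nsmul', ← pow_succ]
        exact hx'
      · intro hy
        obtain ⟨x, rfl⟩ := T.div y
        refine ⟨x, ?_, rfl⟩
        have hy' : p ^ j • p • x = 0 := hy
        show p ^ (j + 1) • x = 0
        rw [pow_succ, mul_nsmul']
        exact hy'
    rw [h, h1, h2, ih, pow_succ, mul_comm]
    rfl

theorem pow_eq_one {j : ℕ} {x y : V} (hx : x ∈ Tp V p j) (hy : y ∈ Tp V p j) :
    T.e j x y ^ p ^ j = 1 := by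
  rw [← (T.pairing j).nsmul_left hx hy, mem_Tp.1 hx, (T.pairing j).zero_left hy]

/-- weights on the toric part. -/
theorem weight_Y {j : ℕ} {x y : V} (hx : x ∈ T.Y j) (hy : y ∈ T.Y j) :
    T.e j x y ^ p ^ T.a = 1 := by
  have hx' := T.Y_le j hx
  have hy' := T.Y_le j hy
  refine lagr_pow_eq_one T.hp T.hqa ((T.pairing j).ne x hx' y hy') (T.pow_eq_one hx' hy') ?_
  have h1 : T.e j (T.φ (T.φ x)) (T.φ (T.φ y)) = (T.e j x y ^ T.q) ^ T.q := by
    rw [T.e_φ j _ (map_mem_Tp T.φ hx') _ (map_mem_Tp T.φ hy'), T.e_φ j _ hx' _ hy']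
  rw [T.Y_sq j x hx, T.Y_sq j y hy, (T.pairing j).nsmul_left hx' ((Tp V p j).nsmul_mem hy' _),
    (T.pairing j).nsmul_right hx' hy', ← pow_mul, ← pow_mul] at h1
  have e1 : T.q ^ 4 = T.q ^ 2 * T.q ^ 2 := by ring
  have e2 : T.q ^ 2 = T.q * T.q := by ring
  rw [e1, h1, ← e2]

/-- weights on the kernel of `φ - U`. -/
theorem weight_A {j : ℕ} {x y : V} (hx : x ∈ Tp V p j) (hy : y ∈ Tp V p j)
    (hx' : T.φ x = T.U x) (hy' : T.φ y = T.U y) : T.e j x y ^ p ^ T.a = 1 := by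
  have h0 : T.e j x y ^ T.q = T.e j x y := by
    rw [← T.e_φ j x hx y hy, hx', hy', T.e_U j x hx y hy]
  refine lagr_pow_eq_one T.hp T.hqa ((T.pairing j).ne x hx y hy) (T.pow_eq_one hx hy) ?_
  have e2 : T.e j x y ^ T.q ^ 2 = T.e j x y := by rw [pow_two, pow_mul, h0, h0]
  have e1 : T.q ^ 4 = T.q ^ 2 * T.q ^ 2 := by ring
  rw [e1, pow_mul, e2, e2]

/-- `YY j` is isotropic for `j ≥ a`. -/
theorem YY_isotropic {j : ℕ} (hj : T.a ≤ j) {y y' : V} (hy : y ∈ T.YY j) (hy' : y' ∈ T.YY j) :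
    T.e 1 y y' = 1 := by
  obtain ⟨x, hx, rfl⟩ := hy
  obtain ⟨x', hx', rfl⟩ := hy'
  show T.e 1 (p ^ j • x) (p ^ j • x') = 1
  rw [T.tower j x (T.Y_le _ hx) x' (T.Y_le _ hx')]
  obtain ⟨i, rfl⟩ := Nat.exists_eq_add_of_le hj
  rw [pow_add, pow_mul, T.weight_Y hx hx', one_pow]

theorem card_YY_sq_le {j : ℕ} (hj : T.a ≤ j) : Nat.card (T.YY j) * Nat.card (T.YY j) ≤ T.w := by
  have := T.fin 1
  have h1 : T.YY j ≤ (T.pairing 1).perp (T.YY j) := fun y hy =>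
    ⟨T.YY_le j hy, fun s hs _ => T.YY_isotropic hj hs hy⟩
  have : Finite ((T.pairing 1).perp (T.YY j)) := T.finite_of_le ((T.pairing 1).perp_le _)
  exact (Nat.mul_le_mul_left _ (lagr_card_le h1)).trans
    ((T.pairing 1).card_mul_card_perp_le (T.YY_le j))

theorem card_Y_succ_le (j : ℕ) :
    Nat.card (T.Y (j + 1)) ≤ Nat.card (T.Y j) * Nat.card (T.YY j) := by
  have h := lagr_card_map (nsmulAddMonoidHom (α := V) (p ^ j)) (T.Y (j + 1))
  have : Finite (T.Y j) := T.finite_of_le (T.Y_le j)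
  have h1 : (T.Y (j + 1) ⊓ (nsmulAddMonoidHom (α := V) (p ^ j)).ker : AddSubgroup V) ≤ T.Y j :=
    fun x hx => T.Y_tors j x hx.1 hx.2
  rw [h]
  exact Nat.mul_le_mul_right _ (lagr_card_le h1)

theorem card_YY_le_w (j : ℕ) : Nat.card (T.YY j) ≤ T.w := by
  have := T.fin 1
  exact lagr_card_le (T.YY_le j)

theorem card_Y_le_pow (j : ℕ) : Nat.card (T.Y j) ≤ T.w ^ j := by
  have := T.fin j
  rw [← T.card_Tp j]
  exact lagr_card_le (T.Y_le j)

theorem card_Y_add_le (m : ℕ) :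
    Nat.card (T.Y (T.a + m)) ≤ T.w ^ T.a * Nat.card (T.YY T.a) ^ m := by
  induction m with
  | zero => simpa using T.card_Y_le_pow T.a
  | succ m ih =>
    have : Finite (T.YY T.a) := T.finite_of_le (T.YY_le _)
    calc Nat.card (T.Y (T.a + (m + 1))) ≤ Nat.card (T.Y (T.a + m)) * Nat.card (T.YY (T.a + m)) :=
          T.card_Y_succ_le (T.a + m)
      _ ≤ (T.w ^ T.a * Nat.card (T.YY T.a) ^ m) * Nat.card (T.YY T.a) :=
          Nat.mul_le_mul ih (lagr_card_le (T.YY_anti' (Nat.le_add_right _ _)))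
      _ = T.w ^ T.a * Nat.card (T.YY T.a) ^ (m + 1) := by rw [pow_succ, mul_assoc]

/-- the lower bound for the toric part. -/
theorem pow_le_card_Y (k : ℕ) : T.w ^ k ≤ T.w ^ T.a * (Nat.card (T.Y k) * Nat.card (T.Y k)) := by
  have := T.fin k
  have := T.fin T.a
  set f : V →+ V := T.φ - T.U with hf
  have hfx : ∀ x, f x = T.φ x - T.U x := fun x => rfl
  set A : AddSubgroup V := Tp V p k ⊓ f.ker with hA
  have hAle : A ≤ Tp V p k := inf_le_left
  have hAφ : ∀ x ∈ A, T.φ x = T.U x := fun x hx => sub_eq_zero.1 ((hfx x).symm.trans hx.2)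
  have : Finite A := T.finite_of_le hAle
  have : Finite (T.Y k) := T.finite_of_le (T.Y_le k)
  -- `|W| ≤ |A| |Y|`
  have h1 : T.w ^ k ≤ Nat.card A * Nat.card (T.Y k) := by
    rw [← T.card_Tp k, lagr_card_map f (Tp V p k)]
    refine Nat.mul_le_mul_left _ (lagr_card_le ?_)
    rintro y ⟨x, hx, rfl⟩
    rw [hfx]
    exact T.Y_φ k x hx
  -- `|A| ≤ w ^ a |A^⊥|`
  have : Finite ((T.pairing k).perp A) := T.finite_of_le ((T.pairing k).perp_le _)
  have h2 : Nat.card A ≤ T.w ^ T.a * Nat.card ((T.pairing k).perp A) := by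
    rw [lagr_card_map (nsmulAddMonoidHom (α := V) (p ^ T.a)) A, ← T.card_Tp T.a]
    refine Nat.mul_le_mul (lagr_card_le fun x hx => hx.2) (lagr_card_le ?_)
    rintro y ⟨x, hx, rfl⟩
    refine ⟨(Tp V p k).nsmul_mem (hAle hx) _, fun s hs _ => ?_⟩
    show T.e k s (p ^ T.a • x) = 1
    rw [(T.pairing k).nsmul_right (hAle hs) (hAle hx)]
    exact T.weight_A (hAle hs) (hAle hx) (hAφ s hs) (hAφ x hx)
  have h3 : Nat.card A * Nat.card ((T.pairing k).perp A) ≤ T.w ^ k := by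
    rw [← T.card_Tp k]
    exact (T.pairing k).card_mul_card_perp_le hAle
  -- `|A|² ≤ w ^ (a + k)`
  have h4 : Nat.card A * Nat.card A ≤ T.w ^ T.a * T.w ^ k := by
    calc Nat.card A * Nat.card A ≤ Nat.card A * (T.w ^ T.a * Nat.card ((T.pairing k).perp A)) :=
          Nat.mul_le_mul_left _ h2
      _ = T.w ^ T.a * (Nat.card A * Nat.card ((T.pairing k).perp A)) := by ring
      _ ≤ T.w ^ T.a * T.w ^ k := Nat.mul_le_mul_left _ h3
  have h5 : T.w ^ k * T.w ^ k ≤ T.w ^ k * (T.w ^ T.a * (Nat.card (T.Y k) * Nat.card (T.Y k))) := by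
    calc T.w ^ k * T.w ^ k ≤ (Nat.card A * Nat.card (T.Y k)) * (Nat.card A * Nat.card (T.Y k)) :=
          Nat.mul_le_mul h1 h1
      _ = (Nat.card A * Nat.card A) * (Nat.card (T.Y k) * Nat.card (T.Y k)) := by ring
      _ ≤ (T.w ^ T.a * T.w ^ k) * (Nat.card (T.Y k) * Nat.card (T.Y k)) :=
          Nat.mul_le_mul_right _ h4
      _ = T.w ^ k * (T.w ^ T.a * (Nat.card (T.Y k) * Nat.card (T.Y k))) := by ring
  exact Nat.le_of_mul_le_mul_left h5 (pow_pos T.w_pos k)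

/-- `|YY a|² = |V[p]|`. -/
theorem card_YY_sq : Nat.card (T.YY T.a) * Nat.card (T.YY T.a) = T.w := by
  refine le_antisymm (T.card_YY_sq_le le_rfl) ?_
  set s := Nat.card (T.YY T.a) with hs
  apply lagr_le_of_pow_le (C := T.w ^ (2 * T.a))
  intro m
  have h1 := T.pow_le_card_Y (T.a + m)
  have h2 := T.card_Y_add_le m
  rw [← hs] at h2
  have h3 : T.w ^ T.a * T.w ^ m ≤ T.w ^ T.a * (T.w ^ (2 * T.a) * (s * s) ^ m) := by
    calc T.w ^ T.a * T.w ^ m = T.w ^ (T.a + m) := (pow_add _ _ _).symm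
      _ ≤ T.w ^ T.a * (Nat.card (T.Y (T.a + m)) * Nat.card (T.Y (T.a + m))) := h1
      _ ≤ T.w ^ T.a * ((T.w ^ T.a * s ^ m) * (T.w ^ T.a * s ^ m)) :=
          Nat.mul_le_mul_left _ (Nat.mul_le_mul h2 h2)
      _ = T.w ^ T.a * (T.w ^ (2 * T.a) * (s * s) ^ m) := by rw [mul_pow, two_mul, pow_add]; ring
  exact Nat.le_of_mul_le_mul_left h3 (pow_pos T.w_pos _)

/-- **The divisible toric part is Lagrangian.** -/
theorem lagrangian {x : V} (hx : x ∈ Tp V p 1) (h : ∀ y ∈ T.YY T.a, T.e 1 y x = 1) :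
    x ∈ T.YY T.a := by
  have := T.fin 1
  have h1 : T.YY T.a ≤ (T.pairing 1).perp (T.YY T.a) := fun y hy =>
    ⟨T.YY_le _ hy, fun s hs _ => T.YY_isotropic le_rfl hs hy⟩
  have : Finite ((T.pairing 1).perp (T.YY T.a)) := T.finite_of_le ((T.pairing 1).perp_le _)
  have : Finite (T.YY T.a) := T.finite_of_le (T.YY_le _)
  have h2 := (T.pairing 1).card_mul_card_perp_le (T.YY_le T.a)
  have h3 : Nat.card ((T.pairing 1).perp (T.YY T.a)) ≤ Nat.card (T.YY T.a) := by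
    have h4 : Nat.card (T.YY T.a) * Nat.card ((T.pairing 1).perp (T.YY T.a)) ≤
        Nat.card (T.YY T.a) * Nat.card (T.YY T.a) := by
      rw [T.card_YY_sq]; exact h2
    exact Nat.le_of_mul_le_mul_left h4 Nat.card_pos
  rw [lagr_eq_of_card_le h1 h3]
  exact ⟨hx, fun s hs _ => h s hs⟩

/-- **Exactness (E')**: if `N` (`= σ - 1`) maps `V[p ^ j]` into the toric part and the kernel of `N`
on `V[p]` is orthogonal to the divisible toric part, then `ker N = im N` on `V[p]`. -/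
theorem exact (N : V →+ V) (hN : ∀ j, ∀ x ∈ Tp V p j, N x ∈ T.Y j)
    (horth : ∀ x ∈ Tp V p 1, N x = 0 → ∀ y ∈ T.YY T.a, T.e 1 y x = 1)
    {x : V} (hx : x ∈ Tp V p 1) (hNx : N x = 0) : ∃ z ∈ Tp V p 1, x = N z := by
  have := T.fin 1
  have : Finite (T.YY T.a) := T.finite_of_le (T.YY_le _)
  have hker : (Tp V p 1 ⊓ N.ker : AddSubgroup V) ≤ T.YY T.a := fun z hz =>
    T.lagrangian hz.1 (horth z hz.1 hz.2)
  have him : (Tp V p 1).map N ≤ T.YY T.a := by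
    rintro y ⟨z, hz, rfl⟩
    -- `z = p ^ a z'`
    have hdiv : ∀ (i : ℕ) (v : V), ∃ v', p ^ i • v' = v := by
      intro i
      induction i with
      | zero => exact fun v => ⟨v, by rw [pow_zero, one_nsmul]⟩
      | succ i ih =>
        intro v
        obtain ⟨v₁, rfl⟩ := ih v
        obtain ⟨v₂, rfl⟩ := T.div v₁
        exact ⟨v₂, by rw [pow_succ, mul_nsmul']⟩
    obtain ⟨z', rfl⟩ := hdiv T.a z
    refine ⟨N z', hN _ z' ?_, ?_⟩
    · have hz' : p ^ 1 • p ^ T.a • z' = 0 := hz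
      rw [pow_one, ← mul_nsmul', mul_comm] at hz'
      show p ^ (T.a + 1) • z' = 0
      rw [pow_succ]
      exact hz'
    · show p ^ T.a • N z' = N (p ^ T.a • z')
      rw [map_nsmul]
  have hcard := lagr_card_map N (Tp V p 1)
  have h1 : Nat.card (T.YY T.a) ≤ Nat.card ((Tp V p 1).map N) := by
    have h2 : Nat.card (T.YY T.a) * Nat.card (T.YY T.a) ≤
        Nat.card (T.YY T.a) * Nat.card ((Tp V p 1).map N) := by
      rw [T.card_YY_sq]
      show Nat.card (Tp V p 1) ≤ _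
      rw [hcard]
      exact Nat.mul_le_mul_right _ (lagr_card_le hker)
    exact Nat.le_of_mul_le_mul_left h2 Nat.card_pos
  have h3 : (Tp V p 1).map N = T.YY T.a := lagr_eq_of_card_le him h1
  have h4 : x ∈ (Tp V p 1).map N := h3 ▸ hker ⟨hx, hNx⟩
  obtain ⟨z, hz, rfl⟩ := h4
  exact ⟨z, hz, rfl⟩

include T in
theorem exists_pow_nsmul_eq (i : ℕ) (v : V) : ∃ v', p ^ i • v' = v := by
  induction i generalizing v with
  | zero => exact ⟨v, by rw [pow_zero, one_nsmul]⟩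
  | succ i ih =>
    obtain ⟨v₁, rfl⟩ := ih v
    obtain ⟨v₂, rfl⟩ := T.div v₁
    exact ⟨v₂, by rw [pow_succ, mul_nsmul']⟩

/-- The hypotheses on the monodromy operator `N = σ - 1`. -/
structure IsMono (N : V →+ V) : Prop where
  map_mem : ∀ j, ∀ x ∈ Tp V p j, N x ∈ T.Y j
  map_Y : ∀ j, ∀ x ∈ T.Y j, N x = 0
  orth : ∀ x ∈ Tp V p 1, N x = 0 → ∀ y ∈ T.YY T.a, T.e 1 y x = 1

variable {T} {N : V →+ V}

/-- **Exactness at all levels.** -/
theorem IsMono.exact_all (h : T.IsMono N) (k : ℕ) {x : V} (hx : x ∈ Tp V p k) (hNx : N x = 0) :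
    ∃ z ∈ Tp V p k, x = N z := by
  induction k generalizing x with
  | zero =>
    refine ⟨0, (Tp V p 0).zero_mem, ?_⟩
    have hx' : p ^ 0 • x = 0 := hx
    rw [pow_zero, one_nsmul] at hx'
    rw [hx', map_zero]
  | succ k ih =>
    have hx' : p ^ (k + 1) • x = 0 := hx
    have h1 : p ^ k • x ∈ Tp V p 1 := by
      show p ^ 1 • p ^ k • x = 0
      rw [← mul_nsmul', ← pow_add, add_comm 1 k]
      exact hx'
    obtain ⟨z₁, hz₁, e₁⟩ := T.exact N h.map_mem h.orth h1 (by rw [map_nsmul, hNx, nsmul_zero])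
    obtain ⟨z₂, rfl⟩ := T.exists_pow_nsmul_eq k z₁
    have hz₂ : z₂ ∈ Tp V p (k + 1) := by
      have : p ^ 1 • p ^ k • z₂ = 0 := hz₁
      show p ^ (k + 1) • z₂ = 0
      rw [← mul_nsmul', ← pow_add, add_comm 1 k] at this
      exact this
    have h2 : x - N z₂ ∈ Tp V p k := by
      show p ^ k • (x - N z₂) = 0
      rw [nsmul_sub, e₁, map_nsmul, sub_self]
    have h3 : N (x - N z₂) = 0 := by
      rw [map_sub, hNx, h.map_Y _ _ (h.map_mem _ _ hz₂), sub_zero]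
    obtain ⟨z₃, hz₃, e₃⟩ := ih h2 h3
    have hz₃' : z₃ ∈ Tp V p (k + 1) := by
      have : p ^ k • z₃ = 0 := hz₃
      show p ^ (k + 1) • z₃ = 0
      rw [pow_succ, mul_comm, mul_nsmul', this, nsmul_zero]
    refine ⟨z₂ + z₃, (Tp V p (k + 1)).add_mem hz₂ hz₃', ?_⟩
    rw [map_add, ← e₃]
    abel

/-- The toric part is the kernel of `N`. -/
theorem IsMono.mem_Y_iff (h : T.IsMono N) (k : ℕ) {x : V} :
    x ∈ T.Y k ↔ x ∈ Tp V p k ∧ N x = 0 := by
  constructor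
  · exact fun hx => ⟨T.Y_le k hx, h.map_Y k x hx⟩
  · rintro ⟨hx, hNx⟩
    obtain ⟨z, hz, rfl⟩ := h.exact_all k hx hNx
    exact h.map_mem k z hz

/-- The toric part is the image of `N`. -/
theorem IsMono.mem_Y_iff_exists (h : T.IsMono N) (k : ℕ) {x : V} :
    x ∈ T.Y k ↔ ∃ z ∈ Tp V p k, x = N z := by
  constructor
  · exact fun hx => h.exact_all k (T.Y_le k hx) (h.map_Y k x hx)
  · rintro ⟨z, hz, rfl⟩
    exact h.map_mem k z hz

/-- Toric classes are divisible among toric classes. -/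
theorem IsMono.exists_nsmul_eq (h : T.IsMono N) (k : ℕ) {y : V} (hy : y ∈ T.Y k) :
    ∃ y' ∈ T.Y (k + 1), p • y' = y := by
  obtain ⟨z, hz, rfl⟩ := (h.mem_Y_iff_exists k).1 hy
  obtain ⟨z', rfl⟩ := T.div z
  refine ⟨N z', h.map_mem _ _ ?_, by rw [map_nsmul]⟩
  have : p ^ k • p • z' = 0 := hz
  show p ^ (k + 1) • z' = 0
  rw [pow_succ, mul_nsmul']
  exact this

/-- `YY a = Y 1`: every toric class of order `p` is divisible. -/
theorem IsMono.YY_eq (h : T.IsMono N) : T.YY T.a = T.Y 1 := by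
  apply le_antisymm
  · intro y hy
    refine (h.mem_Y_iff 1).2 ⟨T.YY_le _ hy, ?_⟩
    obtain ⟨x, hx, rfl⟩ := hy
    show N (p ^ T.a • x) = 0
    rw [map_nsmul, h.map_Y _ _ hx, nsmul_zero]
  · intro y hy
    exact T.lagrangian (T.Y_le 1 hy) (h.orth y (T.Y_le 1 hy) (h.map_Y 1 y hy))

/-- `|Y k|² = |V[p ^ k]|`. -/
theorem IsMono.card_Y_sq (h : T.IsMono N) (k : ℕ) :
    Nat.card (T.Y k) * Nat.card (T.Y k) = T.w ^ k := by
  rw [← T.card_Tp k, lagr_card_map N (Tp V p k)]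
  have h1 : (Tp V p k ⊓ N.ker : AddSubgroup V) = T.Y k := by
    ext x
    rw [h.mem_Y_iff k]
    rfl
  have h2 : (Tp V p k).map N = T.Y k := by
    ext x
    rw [h.mem_Y_iff_exists k]
    constructor
    · rintro ⟨z, hz, rfl⟩
      exact ⟨z, hz, rfl⟩
    · rintro ⟨z, hz, rfl⟩
      exact ⟨z, hz, rfl⟩
  rw [h1, h2]

/-- The toric part of level `p` is its own orthogonal. -/
theorem IsMono.mem_Y_one_of_orth (h : T.IsMono N) {x : V} (hx : x ∈ Tp V p 1)
    (hx' : ∀ y ∈ T.Y 1, T.e 1 y x = 1) : x ∈ T.Y 1 := by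
  rw [← h.YY_eq] at hx' ⊢
  exact T.lagrangian hx hx'

theorem IsMono.Y_one_isotropic (h : T.IsMono N) {y y' : V} (hy : y ∈ T.Y 1) (hy' : y' ∈ T.Y 1) :
    T.e 1 y y' = 1 := by
  rw [← h.YY_eq] at hy hy'
  exact T.YY_isotropic le_rfl hy hy'

/-- Purity (the field `hpure` of `T2.Data`): exactness modulo `p`. -/
theorem IsMono.pure (h : T.IsMono N) (k : ℕ) {y : V} (hy : y ∈ Tp V p (k + 1))
    (hNy : N (p ^ k • y) = 0) :
    ∃ z ∈ Tp V p (k + 1), ∃ z' ∈ Tp V p (k + 1), y = N z + p • z' := by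
  have hy' : p ^ (k + 1) • y = 0 := hy
  have h1 : p ^ k • y ∈ Tp V p 1 := by
    show p ^ 1 • p ^ k • y = 0
    rw [← mul_nsmul', ← pow_add, add_comm 1 k]
    exact hy'
  obtain ⟨z₁, hz₁, e₁⟩ := T.exact N h.map_mem h.orth h1 hNy
  obtain ⟨z₂, rfl⟩ := T.exists_pow_nsmul_eq k z₁
  have hz₂ : z₂ ∈ Tp V p (k + 1) := by
    have : p ^ 1 • p ^ k • z₂ = 0 := hz₁
    show p ^ (k + 1) • z₂ = 0
    rw [← mul_nsmul', ← pow_add, add_comm 1 k] at this
    exact this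
  obtain ⟨z', hz'⟩ := T.div (y - N z₂)
  refine ⟨z₂, hz₂, z', ?_, by rw [hz']; abel⟩
  show p ^ (k + 1) • z' = 0
  rw [pow_succ, mul_nsmul', hz', nsmul_sub, e₁, map_nsmul, sub_self]

end TowerU

end Fermat.Agent.S43.E0
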