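/-
Row 37 (S43), block E0 (chief helper36).  THE INTERFACES OF (ORTH') AND ITS ASSEMBLY.

`orthJ` : an inertia-fixed class `x` and a toric class `y` of `J₀(M q)[p]`, both in the generalised eigenspace
of ONE non-Eisenstein `T_ℓ`, are orthogonal for the Weil pairing.  This is the hypothesis (ORTH') of design (B)
(`E0/Lagr.lean`, `Tower.exact`).

Nodes (named `Prop`s; owners in report #1679):
* `NodeJGal`, `NodeJHecke` : dictionary classes of `JZero N` -> functions (formal);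
* `NodePull`    : level `M q` -> level `L = M * 4 * q`;
* `NodeUnitRep` : (D) + (V) + (N): an inertia-fixed Kummer function, nilpotent for `T_ℓ - c` with `ℓ + 1 - c` prime to
                  `n`, is, up to an `n`-th power, a function over the inertia field which is a unit at both vertical
                  valuations;
* `NodeOrthL`   : (O): the evaluation on the regular model of level `L`.
-/
import Fermat.Agent.S15.LocN.Jac
import Fermat.Agent.S44.Depth.Inst.Defs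
import Fermat.Agent.BAD.LevelQ.Mod.Defs
import Fermat.Agent.S15.Pair.Basic
import Fermat.Agent.S15.Defs
import Fermat.Agent.GAL.E.Exists
import Fermat.Agent.C1.Mod.Main

set_option autoImplicit false
set_option linter.unusedSectionVars false

noncomputable section

namespace Fermat.Agent.S43.E0

open ModularCurve AlgebraicCurve Fermat.Agent.S24 Fermat.Agent.S24.B Fermat.Agent.GAL
  Fermat.Agent.GAL.E Fermat.Agent.C1 Fermat.Agent.S27 Fermat.Agent.S19.Weil Fermat.Agent.S17.W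
  Fermat.Agent.S15.LocN Fermat.Agent.Lib.InertiaField Fermat.Agent.BAD.LevelQ.Mod
  Fermat.Agent.S44.Depth.Inst Fermat.Agent.S18

/-- The multiplicative version of `T_ℓ - c` on functions. -/
def tauF {N ℓ : ℕ} [NeZero ℓ] (H : HeckeOp N ℓ) (c : ℤ) (u : FN N) : FN N := H.T u / u ^ c

/-- **Dictionary, Galois**: a representative of a `τ`-fixed class is `τ`-fixed up to an `n`-th power. -/
def NodeJGal : Prop :=
  ∀ (N : ℕ) [NeZero N] (n : ℕ), 0 < n → ∀ (x : JZero N) (a : TorsRep n x) (τ : E.GQ), τ • x = x →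
    ∃ h : FN N, galF N τ a.f = a.f * h ^ n

/-- **Dictionary, Hecke**: if `(T_ℓ - c) ^ k` kills the class, then `(tauF H c) ^ k` of a representative is an
`n`-th power. -/
def NodeJHecke : Prop :=
  ∀ (N : ℕ) [NeZero N] (n : ℕ), 0 < n → ∀ (ℓ : ℕ) [NeZero ℓ], ℓ.Prime → ¬ ℓ ∣ N → ∀ (H : HeckeOp N ℓ) (c : ℤ)
    (x : JZero N) (a : TorsRep n x) (k : ℕ),
    ((S15.Tp N ℓ - (c : AddMonoid.End (JZero N))) ^ k) x = 0 → ∃ h : FN N, (tauF H c)^[k] a.f = h ^ n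

/-- The package of the change of level `M q → M * 4 * q`. -/
structure PullPkg (M q : ℕ) [NeZero M] [NeZero q] where
  /-- the inclusion of function fields (the identity on `q`-expansions) -/
  ι : FN (M * q) →+* FN (M * 4 * q)
  /-- the pull-back of divisor classes -/
  pb : JZero (M * q) →+ JZero (M * 4 * q)
  rep : ∀ {n : ℕ} {x : JZero (M * q)} (a : TorsRep n x), ∃ a' : TorsRep n (pb x), a'.f = ι a.f
  /-- the degree -/
  d : ℕ
  d_primes : ∀ p : ℕ, p.Prime → p ∣ d → p ≤ 3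
  weil_pb : ∀ n : ℕ, 0 < n → ∀ x y : JZero (M * q), (n : ℤ) • x = 0 → (n : ℤ) • y = 0 →
    weil n (pb x) (pb y) = weil n x y ^ d
  ι_gal : ∀ (τ : E.GQ) (f : FN (M * q)), ι (galF (M * q) τ f) = galF (M * 4 * q) τ (ι f)
  ι_T : ∀ (ℓ : ℕ) [NeZero ℓ] (H : HeckeOp (M * q) ℓ) (H' : HeckeOp (M * 4 * q) ℓ) (f : FN (M * q)),
    ι (H.T f) = H'.T (ι f)
  ι_w : ∀ (D : ALData M q) (D' : ALData (M * 4) q) (f : FN (M * q)), ι (D.w f) = D'.w (ι f)
  ι_cong1 : ∀ (A : ValuationSubring Kbar) (f : FN (M * q)), Cong1 A (M * q) f → Cong1 A (M * 4 * q) (ι f)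

/-- **Node PULL.** -/
def NodePull : Prop :=
  ∀ (M q : ℕ) [NeZero M] [NeZero q], q.Prime → ¬ q ∣ M → Nonempty (PullPkg M q)

/-- **Node UNITREP** = (D) + (V) + (N), level `L = M' * 4 * q`. -/
def NodeUnitRep : Prop :=
  ∀ (q M' : ℕ) [NeZero q] [NeZero M'], q.Prime → q ≠ 2 → ¬ q ∣ M' → ∀ hc : (M' * 4).Coprime q,
  ∀ (A : ValuationSubring Qb) [IsDiscreteValuationRing (A0 A)], A.LiesOverPrime q →
  ∀ n : ℕ, 0 < n → ¬ q ∣ n →
  ∀ (ℓ : ℕ) [NeZero ℓ], ℓ.Prime → ¬ ℓ ∣ M' * 4 * q → ∀ H : HeckeOp (M' * 4 * q) ℓ,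
  ∀ c : ℤ, IsCoprime ((ℓ : ℤ) + 1 - c) (n : ℤ) →
  ∀ f : FN (M' * 4 * q), f ≠ 0 → IsKum (M' * 4 * q) n f →
    (∀ τ ∈ A.inertiaSubgroupIn ℚ, ∃ h : FN (M' * 4 * q), galF (M' * 4 * q) τ f = f * h ^ n) →
    (∃ (k : ℕ) (h : FN (M' * 4 * q)), (tauF H c)^[k] f = h ^ n) →
    ∃ (g : FN (M' * 4 * q)) (v0 : FK (K0 A) (M' * 4 * q)), g ≠ 0 ∧
      g ^ n * f = bcK (K0 A) (M' * 4 * q) v0 ∧
      (VV (A0 A) hc 0).valuation v0 = 1 ∧ (VV (A0 A) hc 1).valuation v0 = 1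

/-- **Node ORTHL** = (O), level `L = M' * 4 * q` (`Orth.orthL` of helper5): a vertical unit over the inertia field is
orthogonal to the toric classes. -/
def NodeOrthL : Prop :=
  ∀ (q M' : ℕ) [NeZero q] [NeZero M'], q.Prime → q ≠ 2 → ¬ q ∣ M' → ∀ hc : (M' * 4).Coprime q,
  ∀ (A : ValuationSubring Qb) [IsDiscreteValuationRing (A0 A)], A.LiesOverPrime q →
  ∀ D : ALData (M' * 4) q, ∀ n : ℕ, 0 < n → ¬ q ∣ n →
  ∀ (x y : JZero (M' * 4 * q)) (a : TorsRep n x) (v0 : FK (K0 A) (M' * 4 * q)),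
    a.f = bcK (K0 A) (M' * 4 * q) v0 →
    (VV (A0 A) hc 0).valuation v0 = 1 → (VV (A0 A) hc 1).valuation v0 = 1 →
    IsTorJ D A n y → weil n x y = 1

/-! ### The assembly -/

theorem PullPkg.ι_tauF {M q : ℕ} [NeZero M] [NeZero q] (P : PullPkg M q) {ℓ : ℕ} [NeZero ℓ]
    (H : HeckeOp (M * q) ℓ) (H' : HeckeOp (M * 4 * q) ℓ) (c : ℤ) (k : ℕ) (f : FN (M * q)) :
    P.ι ((tauF H c)^[k] f) = (tauF H' c)^[k] (P.ι f) := by
  induction k generalizing f with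
  | zero => rfl
  | succ k ih =>
    rw [Function.iterate_succ_apply, Function.iterate_succ_apply, ih]
    congr 1
    unfold tauF
    rw [map_div₀, map_zpow₀, P.ι_T ℓ H H']

/-- a `p`-th root of unity whose `d`-th power is `1`, `d` prime to `p`, is `1`. -/
theorem eq_one_of_pow_pow {K : Type*} [Field K] {z : K} {p d : ℕ} (h : Nat.Coprime d p)
    (h1 : z ^ p = 1) (h2 : z ^ d = 1) : z = 1 := by
  have := (pow_gcd_eq_one (a := z) (m := d) (n := p)).2 ⟨h2, h1⟩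
  rwa [h.gcd_eq_one, pow_one] at this

/-- **(ORTH') in the language of `JZero (M * q)`.** -/
theorem orthJ (hG : NodeJGal) (hH : NodeJHecke) (hP : NodePull) (hU : NodeUnitRep) (hO : NodeOrthL)
    {M q p ℓ : ℕ} [NeZero M] [NeZero q] [NeZero ℓ] (hq : q.Prime) (hq2 : q ≠ 2) (hqM : ¬ q ∣ M)
    (D : ALData M q) (A : ValuationSubring Qb) [IsDiscreteValuationRing (A0 A)]
    (hA : A.LiesOverPrime q) (hp : p.Prime) (h5 : 5 ≤ p) (hpq : p ≠ q)
    (hℓ : ℓ.Prime) (hℓL : ¬ ℓ ∣ M * 4 * q) (c : ℤ) (hc : ¬ (p : ℤ) ∣ (ℓ : ℤ) + 1 - c)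
    {x y : JZero (M * q)} (hx : p • x = 0) (hxI : ∀ τ ∈ A.inertiaSubgroupIn ℚ, τ • x = x)
    (hxT : ∃ k : ℕ, ((S15.Tp (M * q) ℓ - (c : AddMonoid.End (JZero (M * q)))) ^ k) x = 0)
    (hy : IsTorJ D A p y) : weil p y x = 1 := by
  have hp0 : 0 < p := hp.pos
  have hqp : ¬ q ∣ p := fun h => hpq ((Nat.prime_dvd_prime_iff_eq hq hp).1 h).symm
  have hq4 : ¬ q ∣ M * 4 := by
    intro h
    rcases (Nat.Prime.dvd_mul hq).1 h with h | h
    · exact hqM h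
    · have : q ∣ 2 ^ 2 := by norm_num; exact h
      exact hq2 ((Nat.prime_dvd_prime_iff_eq hq Nat.prime_two).1 (hq.dvd_of_dvd_pow this))
  have hcop : (M * 4).Coprime q := ((Nat.Prime.coprime_iff_not_dvd hq).2 hq4).symm
  have hℓN : ¬ ℓ ∣ M * q := fun h => hℓL (h.trans ⟨4, by ring⟩)
  have hcc : IsCoprime ((ℓ : ℤ) + 1 - c) (p : ℤ) :=
    ((Nat.prime_iff_prime_int.1 hp).coprime_iff_not_dvd.2 hc).symm
  obtain ⟨P⟩ := hP M q hq hqM
  obtain ⟨D'⟩ := C1.nonempty_alData (M * 4) q hq hq4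
  let H : HeckeOp (M * q) ℓ := heckeOp (M * q) ℓ hℓ hℓN
  let H' : HeckeOp (M * 4 * q) ℓ := heckeOp (M * 4 * q) ℓ hℓ hℓL
  have hxz : (p : ℤ) • x = 0 := by rw [natCast_zsmul]; exact hx
  have hyz : (p : ℤ) • y = 0 := hy.zsmul_eq_zero
  obtain ⟨a, -⟩ := exists_torsRep hxz ∅
  obtain ⟨b, hb1, hb2⟩ := hy
  obtain ⟨a', ha'⟩ := P.rep a
  obtain ⟨b', hb'⟩ := P.rep b
  -- the unit representative of `x`
  obtain ⟨kx, hx', hkx⟩ := (fun ⟨k, hk⟩ => (⟨k, hH (M * q) p hp0 ℓ hℓ hℓN H c x a k hk⟩ :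
    ∃ k, ∃ h : FN (M * q), (tauF H c)^[k] a.f = h ^ p)) hxT
  obtain ⟨g, v0, hg0, hgv, hv0, hv1⟩ := hU q M hq hq2 hqM hcop A hA p hp0 hqp ℓ hℓ hℓL H' c hcc
    (P.ι a.f) (by rw [← ha']; exact a'.div.1) (by rw [← ha']; exact TorsRep.isKum a')
    (fun τ hτ => by
      obtain ⟨h, hh⟩ := hG (M * q) p hp0 x a τ (hxI τ hτ)
      exact ⟨P.ι h, by rw [← P.ι_gal, hh, map_mul, map_pow]⟩)
    ⟨kx, P.ι hx', by rw [← P.ι_tauF H H', hkx, map_pow]⟩
  -- the pull-back of `y` is toric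
  have hy' : IsTorJ D' A p (P.pb y) :=
    ⟨b', by rw [hb']; exact P.ι_cong1 A _ hb1, by rw [hb', ← P.ι_w D D']; exact P.ι_cong1 A _ hb2⟩
  obtain ⟨G, hG'⟩ := exists_isDivOf (K := Kbar) g hg0
  have key := hO q M hq hq2 hqM hcop A hA D' p hp0 hqp (P.pb x) (P.pb y) (a'.move g G hG') v0
    (by show g ^ p * a'.f = _; rw [ha', hgv]) hv0 hv1 hy'
  rw [P.weil_pb p hp0 x y hxz hyz] at key
  have hdp : Nat.Coprime P.d p := by
    rw [Nat.coprime_comm, Nat.Prime.coprime_iff_not_dvd hp]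
    intro h
    have := P.d_primes p hp h
    omega
  have h1 : weil p x y = 1 :=
    eq_one_of_pow_pow hdp (S15.Pair.weil_pow_eq_one hp0 hxz hyz) key
  rw [S15.Pair.weil_swap hp0 hxz hyz, h1, inv_one]

end Fermat.Agent.S43.E0

end
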