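/-
Row 37 (S43), block E0, leaf `NodeJGal` (task 3793, helper259): a representative of a `τ`-fixed class of
`J₀(N)[n]` is `τ`-fixed up to an `n`-th power.
-/
import Fermat.Agent.S43.E0.OrthJ

set_option autoImplicit false

noncomputable section

namespace Fermat.Agent.S43.E0

open ModularCurve AlgebraicCurve Fermat.Agent.S24 Fermat.Agent.S24.B Fermat.Agent.GAL
  Fermat.Agent.GAL.E Fermat.Agent.C1 Fermat.Agent.S27 Fermat.Agent.S19.Weil Fermat.Agent.S17.W
  Fermat.Agent.S15.LocN

theorem nodeJGal : NodeJGal := by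
  intro N _ n hn x a τ hτ
  -- the conjugate representative
  let a' : TorsRep n x :=
    { D := gal N τ • a.D
      f := gal N τ • a.f
      deg := by rw [SemilinearAut.degree_smul, a.deg]
      cls_eq := by
        rw [cls_smul _ a.deg, a.cls_eq]
        exact hτ
      div := by
        rw [smul_comm]
        exact IsDivOf.smul _ a.div }
  obtain ⟨g, c, G, -, -, -, e⟩ := TorsRep.exists_eq hn a a'
  obtain ⟨c', rfl⟩ := IsAlgClosed.exists_pow_nat_eq c hn
  refine ⟨algebraMap Kbar (FN N) c' * g, ?_⟩
  have e' : galF N τ a.f = algebraMap Kbar (FN N) (c' ^ n) * a.f * g ^ n := e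
  rw [e', map_pow, mul_pow]
  ring

end Fermat.Agent.S43.E0

end
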