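/-
Row 37 (S43), block E0 (chief helper36), task 3794: `NodeJHecke` (dictionary classes of `JZero N` -> functions, Hecke).
-/
import Fermat.Agent.S43.E0.OrthJ
import Fermat.Agent.S15.HJ.Comm

set_option autoImplicit false

noncomputable section

namespace Fermat.Agent.S43.E0

open ModularCurve AlgebraicCurve Fermat.Agent.S24 Fermat.Agent.GAL Fermat.Agent.GAL.E Fermat.Agent.S27
  Fermat.Agent.S19.Weil Fermat.Agent.S37.HeckeInputs

theorem jh_cls_zsmul {N : ℕ} {D : Divisor Kbar (FN N)} (hD : Divisor.degree D = 0) (c : ℤ) :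
    cls (c • D) = c • cls D := by
  obtain ⟨m, rfl | rfl⟩ := c.eq_nat_or_neg
  · exact rep_cls_natCast_zsmul hD m
  · rw [neg_smul, neg_smul, cls_neg (by rw [map_zsmul, hD, smul_zero]), rep_cls_natCast_zsmul hD m]

/-- the step: a representative of `(T_ℓ - c) x`. -/
theorem exists_torsRep_tauF {N : ℕ} [NeZero N] {n ℓ : ℕ} [NeZero ℓ] (hℓ : ℓ.Prime) (hℓN : ¬ ℓ ∣ N)
    (H : HeckeOp N ℓ) (c : ℤ) {x : JZero N} (a : TorsRep n x) :
    ∃ a' : TorsRep n ((S15.Tp N ℓ - (c : AddMonoid.End (JZero N))) x), a'.f = tauF H c a.f := by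
  have hdeg : Divisor.degree (heckeDiv N ℓ a.D) = 0 := heckeDiv_mem_degZero N ℓ a.deg
  have hdeg2 : Divisor.degree (c • a.D) = 0 := by rw [map_zsmul, a.deg, smul_zero]
  have hT : H.T a.f = heckeF N ℓ a.f := by rw [H.T_eq_heckeF hℓ hℓN]
  have hT0 : heckeF N ℓ a.f ≠ 0 := S15.HJ.heckeF_ne_zero N ℓ a.div.1
  refine ⟨⟨heckeDiv N ℓ a.D - c • a.D, tauF H c a.f, ?_, ?_, ?_, ?_⟩, rfl⟩
  · rw [map_sub, hdeg, hdeg2, sub_zero]
  · have e : (S15.Tp N ℓ - (c : AddMonoid.End (JZero N))) x = S15.Tp N ℓ x - c • x := rfl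
    have e2 : S15.Tp N ℓ x = cls (heckeDiv N ℓ a.D) := by
      have e3 : x = Pic0.mk ⟨a.D, a.deg⟩ := by rw [← cls_eq_mk a.deg, a.cls_eq]
      rw [S15.Tp_eq, cls_eq_mk hdeg]
      exact (congrArg (heckeOperatorAlong Kbar N ℓ) e3).trans (heckeOperatorAlong_mk N ℓ ⟨a.D, a.deg⟩)
    rw [cls_sub hdeg hdeg2, jh_cls_zsmul a.deg, a.cls_eq, e, e2]
  · unfold tauF
    rw [hT]
    exact div_ne_zero hT0 (zpow_ne_zero _ a.div.1)
  · intro v
    unfold tauF
    rw [hT, div_eq_mul_inv, v.ord_mul hT0 (inv_ne_zero (zpow_ne_zero _ a.div.1)), v.ord_inv, v.ord_zpow,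
      ← S15.HJ.heckeDiv_of_ord N ℓ a.div.1 a.div.2 v, ← a.div.2 v, map_zsmul]
    simp only [Finsupp.smul_apply, Finsupp.sub_apply, smul_eq_mul]
    ring

/-- a representative of the zero class is an `n`-th power. -/
theorem exists_eq_pow_of_torsRep_zero {N : ℕ} [NeZero N] {n : ℕ} (hn : 0 < n) {x : JZero N}
    (a : TorsRep n x) (hx : x = 0) : ∃ h : FN N, a.f = h ^ n := by
  subst hx
  let a0 : TorsRep n (0 : JZero N) :=
    ⟨0, 1, map_zero _, cls_zero, one_ne_zero, fun v => by rw [smul_zero, Finsupp.zero_apply, v.ord_one]⟩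
  obtain ⟨g, c, G, -, -, -, h⟩ := TorsRep.exists_eq hn a0 a
  obtain ⟨e, he⟩ := IsAlgClosed.exists_pow_nat_eq c hn
  refine ⟨algebraMap Kbar (FN N) e * g, ?_⟩
  rw [h, mul_pow, ← map_pow, he]
  show _ * 1 * _ = _
  rw [mul_one]

theorem nodeJHecke : NodeJHecke := by
  intro N _ n hn ℓ _ hℓ hℓN H c x a k
  induction k generalizing x with
  | zero =>
    intro h
    exact exists_eq_pow_of_torsRep_zero hn a h
  | succ k ih =>
    intro h
    obtain ⟨a', ha'⟩ := exists_torsRep_tauF hℓ hℓN H c a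
    rw [Function.iterate_succ_apply, ← ha']
    exact ih _ a' (by rw [pow_succ] at h; exact h)

end Fermat.Agent.S43.E0

end
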