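/-
Row 37 (S43), block E0, helper281.  Complements to `E0/Lagr.lean` (Mathlib only): under the hypotheses
of `Tower.exact` and `N = 0` on the toric parts, at EVERY level `p ^ k`
`ker N = im N = Y k`, `|Y k|² = |V[p ^ k]|`, the toric classes are divisible among toric classes.
-/
import Fermat.Agent.S43.E0.Lagr

set_option autoImplicit false

namespace Fermat.Agent.S43.E0.Tower

variable {p : ℕ} {V : Type*} [AddCommGroup V] {K : Type*} [Field K] (T : Tower p V K)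

include T in
theorem exists_pow_nsmul_eq (i : ℕ) (v : V) : ∃ v', p ^ i • v' = v := by
  induction i generalizing v with
  | zero => exact ⟨v, by rw [pow_zero, one_nsmul]⟩
  | succ i ih =>
    obtain ⟨v₁, rfl⟩ := ih v
    obtain ⟨v₂, rfl⟩ := T.div v₁
    exact ⟨v₂, by rw [pow_succ, mul_nsmul']⟩

/-- The hypotheses on the monodromy operator `N = σ - 1`. -/
structure IsMono (N : V →+ V) : Prop where
  map_mem : ∀ j, ∀ x ∈ Tp V p j, N x ∈ T.Y j
  map_Y : ∀ j, ∀ x ∈ T.Y j, N x = 0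
  orth : ∀ x ∈ Tp V p 1, N x = 0 → ∀ y ∈ T.YY T.a, T.e 1 y x = 1

variable {T} {N : V →+ V}

/-- **Exactness at all levels.** -/
theorem IsMono.exact_all (h : T.IsMono N) (k : ℕ) {x : V} (hx : x ∈ Tp V p k) (hNx : N x = 0) :
    ∃ z ∈ Tp V p k, x = N z := by
  induction k generalizing x with
  | zero =>
    refine ⟨0, (Tp V p 0).zero_mem, ?_⟩
    have hx' : p ^ 0 • x = 0 := hx
    rw [pow_zero, one_nsmul] at hx'
    rw [hx', map_zero]
  | succ k ih =>
    have hx' : p ^ (k + 1) • x = 0 := hx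
    have h1 : p ^ k • x ∈ Tp V p 1 := by
      show p ^ 1 • p ^ k • x = 0
      rw [← mul_nsmul', ← pow_add, add_comm 1 k]
      exact hx'
    obtain ⟨z₁, hz₁, e₁⟩ := T.exact N h.map_mem h.orth h1 (by rw [map_nsmul, hNx, nsmul_zero])
    obtain ⟨z₂, rfl⟩ := T.exists_pow_nsmul_eq k z₁
    have hz₂ : z₂ ∈ Tp V p (k + 1) := by
      have : p ^ 1 • p ^ k • z₂ = 0 := hz₁
      show p ^ (k + 1) • z₂ = 0
      rw [← mul_nsmul', ← pow_add, add_comm 1 k] at this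
      exact this
    have h2 : x - N z₂ ∈ Tp V p k := by
      show p ^ k • (x - N z₂) = 0
      rw [nsmul_sub, e₁, map_nsmul, sub_self]
    have h3 : N (x - N z₂) = 0 := by
      rw [map_sub, hNx, h.map_Y _ _ (h.map_mem _ _ hz₂), sub_zero]
    obtain ⟨z₃, hz₃, e₃⟩ := ih h2 h3
    have hz₃' : z₃ ∈ Tp V p (k + 1) := by
      have : p ^ k • z₃ = 0 := hz₃
      show p ^ (k + 1) • z₃ = 0
      rw [pow_succ, mul_comm, mul_nsmul', this, nsmul_zero]
    refine ⟨z₂ + z₃, (Tp V p (k + 1)).add_mem hz₂ hz₃', ?_⟩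
    rw [map_add, ← e₃]
    abel

/-- The toric part is the kernel of `N`. -/
theorem IsMono.mem_Y_iff (h : T.IsMono N) (k : ℕ) {x : V} :
    x ∈ T.Y k ↔ x ∈ Tp V p k ∧ N x = 0 := by
  constructor
  · exact fun hx => ⟨T.Y_le k hx, h.map_Y k x hx⟩
  · rintro ⟨hx, hNx⟩
    obtain ⟨z, hz, rfl⟩ := h.exact_all k hx hNx
    exact h.map_mem k z hz

/-- The toric part is the image of `N`. -/
theorem IsMono.mem_Y_iff_exists (h : T.IsMono N) (k : ℕ) {x : V} :
    x ∈ T.Y k ↔ ∃ z ∈ Tp V p k, x = N z := by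
  constructor
  · exact fun hx => h.exact_all k (T.Y_le k hx) (h.map_Y k x hx)
  · rintro ⟨z, hz, rfl⟩
    exact h.map_mem k z hz

/-- Toric classes are divisible among toric classes. -/
theorem IsMono.exists_nsmul_eq (h : T.IsMono N) (k : ℕ) {y : V} (hy : y ∈ T.Y k) :
    ∃ y' ∈ T.Y (k + 1), p • y' = y := by
  obtain ⟨z, hz, rfl⟩ := (h.mem_Y_iff_exists k).1 hy
  obtain ⟨z', rfl⟩ := T.div z
  refine ⟨N z', h.map_mem _ _ ?_, by rw [map_nsmul]⟩
  have : p ^ k • p • z' = 0 := hz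
  show p ^ (k + 1) • z' = 0
  rw [pow_succ, mul_nsmul']
  exact this

/-- `YY a = Y 1`: every toric class of order `p` is divisible. -/
theorem IsMono.YY_eq (h : T.IsMono N) : T.YY T.a = T.Y 1 := by
  apply le_antisymm
  · intro y hy
    refine (h.mem_Y_iff 1).2 ⟨T.YY_le _ hy, ?_⟩
    obtain ⟨x, hx, rfl⟩ := hy
    show N (p ^ T.a • x) = 0
    rw [map_nsmul, h.map_Y _ _ hx, nsmul_zero]
  · intro y hy
    exact T.lagrangian (T.Y_le 1 hy) (h.orth y (T.Y_le 1 hy) (h.map_Y 1 y hy))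

/-- `|Y k|² = |V[p ^ k]|`. -/
theorem IsMono.card_Y_sq (h : T.IsMono N) (k : ℕ) :
    Nat.card (T.Y k) * Nat.card (T.Y k) = T.w ^ k := by
  rw [← T.card_Tp k, lagr_card_map N (Tp V p k)]
  have h1 : (Tp V p k ⊓ N.ker : AddSubgroup V) = T.Y k := by
    ext x
    rw [h.mem_Y_iff k]
    rfl
  have h2 : (Tp V p k).map N = T.Y k := by
    ext x
    rw [h.mem_Y_iff_exists k]
    constructor
    · rintro ⟨z, hz, rfl⟩
      exact ⟨z, hz, rfl⟩
    · rintro ⟨z, hz, rfl⟩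
      exact ⟨z, hz, rfl⟩
  rw [h1, h2]

/-- The toric part of level `p` is its own orthogonal. -/
theorem IsMono.mem_Y_one_of_orth (h : T.IsMono N) {x : V} (hx : x ∈ Tp V p 1)
    (hx' : ∀ y ∈ T.Y 1, T.e 1 y x = 1) : x ∈ T.Y 1 := by
  rw [← h.YY_eq] at hx' ⊢
  exact T.lagrangian hx hx'

theorem IsMono.Y_one_isotropic (h : T.IsMono N) {y y' : V} (hy : y ∈ T.Y 1) (hy' : y' ∈ T.Y 1) :
    T.e 1 y y' = 1 := by
  rw [← h.YY_eq] at hy hy'
  exact T.YY_isotropic le_rfl hy hy'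

/-- Purity (the field `hpure` of `T2.Data`): exactness modulo `p`. -/
theorem IsMono.pure (h : T.IsMono N) (k : ℕ) {y : V} (hy : y ∈ Tp V p (k + 1))
    (hNy : N (p ^ k • y) = 0) :
    ∃ z ∈ Tp V p (k + 1), ∃ z' ∈ Tp V p (k + 1), y = N z + p • z' := by
  have hy' : p ^ (k + 1) • y = 0 := hy
  have h1 : p ^ k • y ∈ Tp V p 1 := by
    show p ^ 1 • p ^ k • y = 0
    rw [← mul_nsmul', ← pow_add, add_comm 1 k]
    exact hy'
  obtain ⟨z₁, hz₁, e₁⟩ := T.exact N h.map_mem h.orth h1 hNy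
  obtain ⟨z₂, rfl⟩ := T.exists_pow_nsmul_eq k z₁
  have hz₂ : z₂ ∈ Tp V p (k + 1) := by
    have : p ^ 1 • p ^ k • z₂ = 0 := hz₁
    show p ^ (k + 1) • z₂ = 0
    rw [← mul_nsmul', ← pow_add, add_comm 1 k] at this
    exact this
  obtain ⟨z', hz'⟩ := T.div (y - N z₂)
  refine ⟨z₂, hz₂, z', ?_, by rw [hz']; abel⟩
  show p ^ (k + 1) • z' = 0
  rw [pow_succ, mul_nsmul', hz', nsmul_sub, e₁, map_nsmul, sub_self]

end Fermat.Agent.S43.E0.Tower
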