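/-
Row 37 (S43), block E0, node UNITREP, the adapter (helper166): `nodeUnitRep : NodeUnitRep` (interface of `E0/OrthJ.lean`)
from `Vert.exists_unit_rep` (helper226, `E0/Vert/Main.lean`).
-/
import Fermat.Agent.S43.E0.OrthJ
import Fermat.Agent.S43.E0.Vert.Main

set_option autoImplicit false

noncomputable section

namespace Fermat.Agent.S43.E0

open ModularCurve AlgebraicCurve Fermat.Agent.S24 Fermat.Agent.S24.B Fermat.Agent.GAL
  Fermat.Agent.GAL.E Fermat.Agent.C1 Fermat.Agent.Lib.InertiaField Fermat.Agent.BAD.LevelQ.Mod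
  Fermat.Agent.S44.Depth.Inst Fermat.Agent.S18

theorem tauF_eq_tau_node {N ℓ : ℕ} [NeZero ℓ] (H : HeckeOp N ℓ) (c : ℤ) : tauF H c = Vert.tau H c := by
  funext u
  exact div_eq_mul_inv _ _

theorem nodeUnitRep : NodeUnitRep := by
  intro q M' _ _ hq _ _ hc A _ hA n hn _ ℓ _ hℓ hℓL H c hcop f hf hK hfix hk
  obtain ⟨k, h, hh⟩ := hk
  rw [tauF_eq_tau_node] at hh
  obtain ⟨u, g, hg, e, hv⟩ := Vert.exists_unit_rep hq hc hA hℓ hℓL H c hn.ne' hcop k f hf hK hfix ⟨h, hh⟩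
  refine ⟨g⁻¹, u, inv_ne_zero hg, ?_, hv 0, hv 1⟩
  have hgn : g ^ n ≠ 0 := pow_ne_zero _ hg
  have e2 : (g⁻¹) ^ n * f = BAD.Bridge.bc A (M' * 4 * q) u := by
    have aux : ∀ a b : FN (M' * 4 * q), a ≠ 0 → a⁻¹ * (b * a) = b := fun a b h => by
      rw [mul_comm b a, inv_mul_cancel_left₀ h]
    rw [e, inv_pow]
    exact aux _ _ hgn
  exact e2

end Fermat.Agent.S43.E0

end
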